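import Fermat.Agent.Root.SummaryLaurentTori
import Mathlib.FieldTheory.RatFunc.AsPolynomial
import Mathlib.LinearAlgebra.FiniteDimensional.Lemmas
import Mathlib.RingTheory.Polynomial.DegreeLT

/-!
# Torsion specialisations of two rational functions

Two rational functions satisfy a polynomial relation; by Manin–Mumford for tori their simultaneous
torsion values satisfy one of finitely many monomial relations, each with finitely many solutions
when the functions are independent modulo the constants.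
-/

set_option autoImplicit false
set_option linter.unusedSectionVars false

noncomputable section

open Polynomial Finset

namespace FA.AilonRudnick

variable {K : Type*} [Field K]

/-- Two rational functions, given by numerators and denominators, satisfy a relation. -/
theorem exists_relation (p₁ q₁ p₂ q₂ : K[X]) :
    ∃ (D : ℕ) (c : Fin D × Fin D → K), c ≠ 0 ∧
      ∑ z, C (c z) * (p₁ ^ (z.1 : ℕ) * q₁ ^ (D - 1 - (z.1 : ℕ)) *
        (p₂ ^ (z.2 : ℕ) * q₂ ^ (D - 1 - (z.2 : ℕ)))) = 0 := by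
  classical
  set d := p₁.natDegree + q₁.natDegree + (p₂.natDegree + q₂.natDegree) with hd
  set D := d + 2
  let t : Fin D × Fin D → K[X] := fun z => p₁ ^ (z.1 : ℕ) * q₁ ^ (D - 1 - (z.1 : ℕ)) *
    (p₂ ^ (z.2 : ℕ) * q₂ ^ (D - 1 - (z.2 : ℕ)))
  set N := (d + 1) * d + 1
  have hdeg : ∀ z, t z ∈ Polynomial.degreeLT K N := fun z => by
    rw [Polynomial.mem_degreeLT]
    refine lt_of_le_of_lt degree_le_natDegree (WithBot.coe_lt_coe.2 ?_)
    have h1 : (z.1 : ℕ) ≤ d + 1 := Nat.lt_succ_iff.1 z.1.2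
    have h2 : (z.2 : ℕ) ≤ d + 1 := Nat.lt_succ_iff.1 z.2.2
    refine Nat.lt_succ_of_le ((natDegree_mul_le.trans (add_le_add natDegree_mul_le
      natDegree_mul_le)).trans ((add_le_add (add_le_add natDegree_pow_le natDegree_pow_le)
      (add_le_add natDegree_pow_le natDegree_pow_le)).trans ?_))
    have h3 : (z.1 : ℕ) * p₁.natDegree ≤ (d + 1) * p₁.natDegree := Nat.mul_le_mul_right _ h1
    have h4 : (D - 1 - (z.1 : ℕ)) * q₁.natDegree ≤ (d + 1) * q₁.natDegree :=
      Nat.mul_le_mul_right _ (by omega)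
    have h5 : (z.2 : ℕ) * p₂.natDegree ≤ (d + 1) * p₂.natDegree := Nat.mul_le_mul_right _ h2
    have h6 : (D - 1 - (z.2 : ℕ)) * q₂.natDegree ≤ (d + 1) * q₂.natDegree :=
      Nat.mul_le_mul_right _ (by omega)
    rw [show (d + 1) * d = (d + 1) * p₁.natDegree + (d + 1) * q₁.natDegree +
      ((d + 1) * p₂.natDegree + (d + 1) * q₂.natDegree) by simp only [hd]; ring]
    omega
  have hnot : ¬ LinearIndependent K fun z => (⟨t z, hdeg z⟩ : Polynomial.degreeLT K N) := by
    intro hli
    have h1 := hli.fintype_card_le_finrank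
    rw [(Polynomial.degreeLTEquiv K N).finrank_eq, Module.finrank_fintype_fun_eq_card,
      Fintype.card_fin, Fintype.card_prod, Fintype.card_fin] at h1
    simp only [N, D] at h1
    nlinarith
  obtain ⟨c, hc, z, hz⟩ := Fintype.not_linearIndependent_iff.1 hnot
  refine ⟨D, c, fun h => hz (congrFun h z), ?_⟩
  have h1 := congrArg Subtype.val hc
  simpa [smul_eq_C_mul] using h1

variable {L : Type*} [Field L] [Algebra K L] [CharZero L]

/-- A two-variable polynomial vanishing at all nonzero pairs is zero. -/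
theorem eq_zero_of_forall_eval {D : ℕ} (c : Fin D × Fin D → K)
    (h : ∀ u v : L, u ≠ 0 → v ≠ 0 →
      ∑ z, algebraMap K L (c z) * (u ^ (z.1 : ℕ) * v ^ (z.2 : ℕ)) = 0) : c = 0 := by
  classical
  have hinf : ({0}ᶜ : Set L).Infinite := (Set.finite_singleton (0 : L)).infinite_compl
  have huniv : ∀ a : Fin D → L, (∀ u : L, u ≠ 0 → ∑ i, a i * u ^ (i : ℕ) = 0) → a = 0 := by
    intro a ha
    have h0 : ∑ i, C (a i) * X ^ (i : ℕ) = 0 := eq_zero_of_infinite_isRoot _ (hinf.mono fun u hu =>
      show IsRoot _ u by simpa [IsRoot, eval_finsetSum] using ha u hu)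
    funext i
    have h1 := congrArg (fun P : L[X] => P.coeff i) h0
    simpa [finsetSum_coeff, coeff_C_mul, coeff_X_pow, Fin.val_inj] using h1
  funext ⟨i, j⟩
  have h1 : ∀ v : L, v ≠ 0 → ∑ j', algebraMap K L (c (i, j')) * v ^ (j' : ℕ) = 0 := by
    intro v hv
    refine congrFun (huniv (fun i' => ∑ j', algebraMap K L (c (i', j')) * v ^ (j' : ℕ))
      fun u hu => ?_) i
    rw [← h u v hu hv, Fintype.sum_prod_type]
    refine Finset.sum_congr rfl fun i' _ => ?_
    rw [Finset.sum_mul]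
    refine Finset.sum_congr rfl fun j' _ => ?_
    ring
  exact (map_eq_zero _).1 (congrFun (huniv (fun j' => algebraMap K L (c (i, j'))) h1) j)

/-- The value of a rational function. -/
def value (α : L) (r : RatFunc K) : L := aeval α r.num / aeval α r.denom

/-- Independence modulo the constants. -/
def IndepModConstants (f g : RatFunc K) : Prop :=
  ∀ a b : ℤ, (∃ c : K, f ^ a * g ^ b = RatFunc.C c) → a = 0 ∧ b = 0

theorem IndepModConstants.ne_zero {f g : RatFunc K} (h : IndepModConstants f g) :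
    f ≠ 0 ∧ g ≠ 0 := by
  refine ⟨fun h0 => ?_, fun h0 => ?_⟩
  · exact one_ne_zero (h 1 0 ⟨0, by simp [h0]⟩).1
  · exact one_ne_zero (h 0 1 ⟨0, by simp [h0]⟩).2

/-- A monomial in two rational functions as a quotient of polynomials. -/
theorem monomial_eq_div (f g : RatFunc K) (hf : f ≠ 0) (hg : g ≠ 0) (a b : ℤ) :
    f ^ a * g ^ b = algebraMap K[X] (RatFunc K)
        (f.num ^ a.toNat * f.denom ^ (-a).toNat * (g.num ^ b.toNat * g.denom ^ (-b).toNat)) /
      algebraMap K[X] (RatFunc K)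
        (f.denom ^ a.toNat * f.num ^ (-a).toNat * (g.denom ^ b.toNat * g.num ^ (-b).toNat)) := by
  have key : ∀ r : RatFunc K, r ≠ 0 → ∀ k : ℤ, r ^ k = algebraMap K[X] (RatFunc K)
      (r.num ^ k.toNat * r.denom ^ (-k).toNat) /
      algebraMap K[X] (RatFunc K) (r.denom ^ k.toNat * r.num ^ (-k).toNat) := fun r hr k => by
    rw [show r ^ k = r ^ ((k.toNat : ℤ) - ((-k).toNat : ℤ)) by congr 1; omega, zpow_sub₀ hr,
      zpow_natCast, zpow_natCast]
    conv_lhs => rw [← RatFunc.num_div_denom r]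
    rw [div_pow, div_pow, div_div_div_eq, map_mul, map_mul, map_pow, map_pow, map_pow, map_pow]
  rw [key f hf a, key g hg b, div_mul_div_comm, ← map_mul, ← map_mul]

/-- **Torsion specialisations are finite.** -/
theorem finite_torsion_values {f g : RatFunc K} (hfg : IndepModConstants f g) :
    {α : L | IsOfFinOrder (value α f) ∧
      IsOfFinOrder (value α g)}.Finite := by
  classical
  obtain ⟨hf, hg⟩ := hfg.ne_zero
  obtain ⟨D, c, hc, hrel⟩ := exists_relation f.num f.denom g.num g.denom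
  let P : MvPolynomial (Fin 2) L := ∑ z : Fin D × Fin D,
    MvPolynomial.C (algebraMap K L (c z)) *
      (MvPolynomial.X 0 ^ (z.1 : ℕ) * MvPolynomial.X 1 ^ (z.2 : ℕ))
  obtain ⟨𝒮, h𝒮, hin, hcov⟩ := FA.Summary.manin_mumford_torus_field (K := L) {P}
  -- the monomial relations
  let Bad : (Fin 2 → ℤ) × (Fin 2 → Lˣ) → Set L := fun wp =>
    {α | value α f ^ wp.1 0 * value α g ^ wp.1 1 =
      (wp.2 0 : L) ^ wp.1 0 * (wp.2 1 : L) ^ wp.1 1 ∧
      aeval α (f.num * f.denom * (g.num * g.denom)) ≠ 0}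
  have hBad : ∀ wp, wp.1 ≠ 0 → (Bad wp).Finite := by
    rintro ⟨w, p⟩ hw
    set A := f.num ^ (w 0).toNat * f.denom ^ (-w 0).toNat *
      (g.num ^ (w 1).toNat * g.denom ^ (-w 1).toNat) with hA
    set B := f.denom ^ (w 0).toNat * f.num ^ (-w 0).toNat *
      (g.denom ^ (w 1).toNat * g.num ^ (-w 1).toNat) with hB
    set η : L := (p 0 : L) ^ w 0 * (p 1 : L) ^ w 1
    have hB0 : B ≠ 0 := mul_ne_zero (mul_ne_zero (pow_ne_zero _ f.denom_ne_zero)
      (pow_ne_zero _ (RatFunc.num_ne_zero hf))) (mul_ne_zero (pow_ne_zero _ g.denom_ne_zero)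
      (pow_ne_zero _ (RatFunc.num_ne_zero hg)))
    have hne : A.map (algebraMap K L) - Polynomial.C η * B.map (algebraMap K L) ≠ 0 := by
      intro h0
      obtain ⟨k, hk⟩ : ∃ k, B.coeff k ≠ 0 := by
        by_contra! h
        exact hB0 (Polynomial.ext fun k => by rw [h k, coeff_zero])
      have hcoef : ∀ i, algebraMap K L (A.coeff i) = η * algebraMap K L (B.coeff i) := fun i => by
        have h1 := congrArg (fun Q : L[X] => Q.coeff i) h0
        simpa [sub_eq_zero] using h1
      have hη : η = algebraMap K L (A.coeff k / B.coeff k) := by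
        rw [map_div₀, hcoef k, mul_div_cancel_right₀ _ ((_root_.map_ne_zero _).2 hk)]
      obtain ⟨c₀, hc₀⟩ : ∃ c₀, c₀ = A.coeff k / B.coeff k := ⟨_, rfl⟩
      rw [← hc₀] at hη
      have hAB : A = Polynomial.C c₀ * B := Polynomial.ext fun i =>
        (algebraMap K L).injective (by rw [coeff_C_mul, map_mul, hcoef i, hη])
      have h2 := hfg (w 0) (w 1) ⟨c₀, by
        rw [monomial_eq_div f g hf hg, ← hA, ← hB, hAB, map_mul, RatFunc.algebraMap_C,
          mul_div_assoc, div_self ((map_ne_zero_iff _ (RatFunc.algebraMap_injective K)).2 hB0),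
          mul_one]⟩
      refine hw (funext fun i => ?_)
      fin_cases i
      · exact h2.1
      · exact h2.2
    refine ((A.map (algebraMap K L) - Polynomial.C η * B.map (algebraMap K L)).roots.toFinset
      |>.finite_toSet).subset fun α hα => ?_
    obtain ⟨heq, hne0⟩ := hα
    simp only [map_mul, mul_ne_zero_iff] at hne0
    obtain ⟨⟨hn1, hd1⟩, hn2, hd2⟩ := hne0
    rw [Finset.mem_coe, Multiset.mem_toFinset, mem_roots hne, IsRoot, eval_sub, eval_mul, eval_C,
      eval_map_algebraMap, eval_map_algebraMap, sub_eq_zero]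
    have hev : ∀ (r : RatFunc K) (k : ℤ), aeval α r.num ≠ 0 → aeval α r.denom ≠ 0 →
        value α r ^ k * aeval α (r.denom ^ k.toNat * r.num ^ (-k).toNat) =
          aeval α (r.num ^ k.toNat * r.denom ^ (-k).toNat) := fun r k hn hd => by
      have hev : value α r = aeval α r.num / aeval α r.denom := rfl
      rw [hev, show (aeval α r.num / aeval α r.denom) ^ k =
        (aeval α r.num / aeval α r.denom) ^ ((k.toNat : ℤ) - ((-k).toNat : ℤ)) by congr 1; omega,
        zpow_sub₀ (div_ne_zero hn hd), zpow_natCast, zpow_natCast, map_mul, map_mul, map_pow,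
        map_pow, map_pow, map_pow, div_pow, div_pow]
      field_simp
    rw [hA, hB, map_mul, map_mul (aeval α) (f.denom ^ _ * _), ← hev f _ hn1 hd1,
      ← hev g _ hn2 hd2]
    show _ = η * _
    rw [← show value α f ^ w 0 *
      value α g ^ w 1 = η from heq]
    ring
  have hU : (⋃ p ∈ 𝒮, ⋃ w ∈ (p.1 : Finset (Fin 2 → ℤ)).filter (· ≠ 0), Bad (w, p.2)).Finite :=
    h𝒮.biUnion fun p _ => (Finset.finite_toSet _).biUnion fun w hw =>
      hBad (w, p.2) (Finset.mem_filter.1 hw).2
  refine hU.subset fun α ⟨hαf, hαg⟩ => ?_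
  have hne : ∀ r : RatFunc K, IsOfFinOrder (value α r) →
      aeval α r.num ≠ 0 ∧ aeval α r.denom ≠ 0 := fun r hr => by
    have h := hr.isUnit.ne_zero
    rw [value, div_ne_zero_iff] at h
    exact h
  set ζ : Fin 2 → Lˣ := ![hαf.isUnit.unit, hαg.isUnit.unit]
  have hζ0 : (ζ 0 : L) = value α f := hαf.isUnit.unit_spec
  have hζ1 : (ζ 1 : L) = value α g := hαg.isUnit.unit_spec
  obtain ⟨p, hp, hpw⟩ := hcov ζ (by
    obtain ⟨m, hm, hm'⟩ := isOfFinOrder_iff_pow_eq_one.1 hαf
    obtain ⟨n, hn, hn'⟩ := isOfFinOrder_iff_pow_eq_one.1 hαg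
    refine isOfFinOrder_iff_pow_eq_one.2 ⟨m * n, Nat.mul_pos hm hn, funext fun i => Units.ext ?_⟩
    fin_cases i
    · show ((ζ 0 ^ (m * n) : Lˣ) : L) = 1
      rw [Units.val_pow_eq_pow_val, hζ0, pow_mul, hm', one_pow]
    · show ((ζ 1 ^ (m * n) : Lˣ) : L) = 1
      rw [Units.val_pow_eq_pow_val, hζ1, mul_comm, pow_mul, hn', one_pow]) (by
    simp only [Finset.mem_singleton, forall_eq]
    obtain ⟨hn1, hd1⟩ := hne f hαf
    obtain ⟨hn2, hd2⟩ := hne g hαg
    have h1 := congrArg (aeval α) hrel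
    simp only [map_sum, map_mul, map_pow, aeval_C, map_zero] at h1
    have hF : (aeval α f.denom) ^ (D - 1) * (aeval α g.denom) ^ (D - 1) ≠ 0 :=
      mul_ne_zero (pow_ne_zero _ hd1) (pow_ne_zero _ hd2)
    refine (mul_eq_zero.1 (?_ : MvPolynomial.eval (fun i => (ζ i : L)) P *
      ((aeval α f.denom) ^ (D - 1) * (aeval α g.denom) ^ (D - 1)) = 0)).resolve_right hF
    rw [← h1]
    simp only [P, map_sum, map_mul, map_pow, MvPolynomial.eval_C, MvPolynomial.eval_X, hζ0, hζ1,
      Finset.sum_mul, value]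
    refine Finset.sum_congr rfl fun z _ => ?_
    have e1 : (aeval α f.denom) ^ (D - 1) =
        (aeval α f.denom) ^ (z.1 : ℕ) * (aeval α f.denom) ^ (D - 1 - (z.1 : ℕ)) := by
      rw [← pow_add]; congr 1; omega
    have e2 : (aeval α g.denom) ^ (D - 1) =
        (aeval α g.denom) ^ (z.2 : ℕ) * (aeval α g.denom) ^ (D - 1 - (z.2 : ℕ)) := by
      rw [← pow_add]; congr 1; omega
    rw [e1, e2, div_pow, div_pow]
    field_simp)
  by_cases hex : ∃ w ∈ p.1, w ≠ 0
  · obtain ⟨w, hw, hw0⟩ := hex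
    refine Set.mem_biUnion hp (Set.mem_biUnion (Finset.mem_filter.2 ⟨hw, hw0⟩) ⟨?_, ?_⟩)
    · have h := hpw w hw
      rw [Fin.prod_univ_two, Fin.prod_univ_two, hζ0, hζ1] at h
      exact h
    · obtain ⟨hn1, hd1⟩ := hne f hαf
      obtain ⟨hn2, hd2⟩ := hne g hαg
      simp only [map_mul]
      exact mul_ne_zero (mul_ne_zero hn1 hd1) (mul_ne_zero hn2 hd2)
  · push Not at hex
    refine absurd (eq_zero_of_forall_eval (L := L) c fun u v hu hv => ?_) hc
    have h := (hin p hp).2 L ![u, v] (fun i => by fin_cases i <;> assumption)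
      (fun w hw => by rw [hex w hw]; simp) P (Finset.mem_singleton_self P)
    rw [MvPolynomial.aeval_def, MvPolynomial.eval₂_eq_eval_map, Algebra.algebraMap_self,
      MvPolynomial.map_id] at h
    simpa [P] using h

end FA.AilonRudnick

end
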