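import Fermat.Agent.AilonRudnick.Core
import Mathlib.FieldTheory.IsAlgClosed.AlgebraicClosure

/-!
# The theorem of Ailon and Rudnick

For independent polynomials the greatest common divisors of `f ^ m - 1` and `g ^ n - 1` divide one
polynomial.
-/

set_option autoImplicit false
set_option linter.unusedSectionVars false

noncomputable section

open Polynomial

namespace FA.AilonRudnick

variable {K : Type*} [Field K] [CharZero K]

/-- Independence of polynomials modulo the constants. -/
def PolyIndep (f g : K[X]) : Prop :=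
  IndepModConstants (algebraMap K[X] (RatFunc K) f) (algebraMap K[X] (RatFunc K) g)

theorem value_algebraMap {L : Type*} [Field L] [Algebra K L] (α : L) (p : K[X]) :
    value α (algebraMap K[X] (RatFunc K) p) = aeval α p := by
  rw [value, RatFunc.num_algebraMap, RatFunc.denom_algebraMap, map_one, div_one]

variable {f g : K[X]}

theorem PolyIndep.natDegree_pos (h : PolyIndep f g) : 0 < f.natDegree ∧ 0 < g.natDegree := by
  refine ⟨Nat.pos_of_ne_zero fun h0 => ?_, Nat.pos_of_ne_zero fun h0 => ?_⟩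
  · refine one_ne_zero (h 1 0 ⟨f.coeff 0, ?_⟩).1
    rw [zpow_one, zpow_zero, mul_one, ← RatFunc.algebraMap_C, ← eq_C_of_natDegree_eq_zero h0]
  · refine one_ne_zero (h 0 1 ⟨g.coeff 0, ?_⟩).2
    rw [zpow_one, zpow_zero, one_mul, ← RatFunc.algebraMap_C, ← eq_C_of_natDegree_eq_zero h0]

local notation "Ω" => AlgebraicClosure K

/-- **The common torsion values are finite.** -/
theorem finite_common_values (h : PolyIndep f g) :
    {α : Ω | IsOfFinOrder (aeval α f) ∧ IsOfFinOrder (aeval α g)}.Finite :=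
  (finite_torsion_values (L := Ω) h).subset fun α ⟨h1, h2⟩ => by
    simpa [value_algebraMap] using And.intro h1 h2

/-- A root of `f ^ m - 1` has multiplicity at most the degree of `f`. -/
theorem rootMultiplicity_pow_sub_one_le {L : Type*} [Field L] [CharZero L] {F : L[X]}
    (hF : 0 < F.natDegree) {m : ℕ} (hm : 0 < m) (α : L) :
    rootMultiplicity α (F ^ m - 1) ≤ F.natDegree := by
  by_cases hroot : (F ^ m - 1).IsRoot α
  swap
  · rw [rootMultiplicity_eq_zero hroot]
    exact Nat.zero_le _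
  rw [IsRoot, eval_sub, eval_pow, eval_one, sub_eq_zero] at hroot
  set ζ := F.eval α with hζ
  have hsplit : F ^ m - 1 = (∑ i ∈ Finset.range m, F ^ i * C ζ ^ (m - 1 - i)) * (F - C ζ) := by
    rw [geom_sum₂_mul, ← C_pow, hroot, C_1]
  have hR : ¬ (∑ i ∈ Finset.range m, F ^ i * C ζ ^ (m - 1 - i)).IsRoot α := by
    rw [IsRoot, eval_finsetSum, Finset.sum_congr rfl fun i hi => show
      eval α (F ^ i * C ζ ^ (m - 1 - i)) = ζ ^ (m - 1) by
        rw [eval_mul, eval_pow, eval_pow, eval_C, ← hζ, ← pow_add]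
        congr 1
        have := Finset.mem_range.1 hi
        omega,
      Finset.sum_const, Finset.card_range, nsmul_eq_mul]
    exact mul_ne_zero (Nat.cast_ne_zero.2 hm.ne') (pow_ne_zero _ fun h0 => by
      rw [h0, zero_pow hm.ne'] at hroot
      exact zero_ne_one hroot)
  have hne : F - C ζ ≠ 0 := fun h0 => by
    rw [sub_eq_zero] at h0
    rw [h0, natDegree_C] at hF
    exact lt_irrefl _ hF
  have hne' : (∑ i ∈ Finset.range m, F ^ i * C ζ ^ (m - 1 - i)) ≠ 0 := fun h0 =>
    hR (by rw [h0]; exact eval_zero)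
  rw [hsplit, rootMultiplicity_mul (mul_ne_zero hne' hne), rootMultiplicity_eq_zero hR, zero_add]
  classical
  calc rootMultiplicity α (F - C ζ) ≤ (F - C ζ).natDegree := by
        rw [← count_roots]
        exact (Multiset.count_le_card _ _).trans (card_roots' _)
    _ = F.natDegree := natDegree_sub_C

open scoped Classical in
/-- **Ailon–Rudnick.** -/
theorem exists_common_bound (h : PolyIndep f g) :
    ∃ H : K[X], H ≠ 0 ∧ ∀ m n : ℕ, 0 < m → 0 < n → gcd (f ^ m - 1) (g ^ n - 1) ∣ H := by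
  obtain ⟨hf, -⟩ := h.natDegree_pos
  have hfin := finite_common_values h
  refine ⟨(∏ α ∈ hfin.toFinset, minpoly K α) ^ f.natDegree,
    pow_ne_zero _ (Finset.prod_ne_zero_iff.2 fun α _ =>
      minpoly.ne_zero (Algebra.IsIntegral.isIntegral α)), fun m n hm hn => ?_⟩
  set G := gcd (f ^ m - 1) (g ^ n - 1)
  have hfm : f ^ m - 1 ≠ 0 := fun h0 => by
    have := congrArg natDegree (sub_eq_zero.1 h0)
    rw [natDegree_pow, natDegree_one, Nat.mul_eq_zero] at this
    omega
  have hG0 : G ≠ 0 := fun h0 => hfm ((gcd_eq_zero_iff _ _).1 h0).1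
  rw [← map_dvd_map' (algebraMap K Ω)]
  refine (IsAlgClosed.splits _).dvd_of_roots_le_roots
    ((Polynomial.map_ne_zero_iff (algebraMap K Ω).injective).2 hG0) ?_
  rw [Multiset.le_iff_count]
  intro α
  rw [count_roots, count_roots]
  by_cases hα : (G.map (algebraMap K Ω)).IsRoot α
  swap
  · rw [rootMultiplicity_eq_zero hα]
    exact Nat.zero_le _
  have hval : ∀ (p : K[X]) (k : ℕ), G ∣ p ^ k - 1 → aeval α p ^ k = 1 := fun p k hdvd => by
    have h1 := hα.dvd (Polynomial.map_dvd (algebraMap K Ω) hdvd)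
    simpa [IsRoot, eval_map_algebraMap, sub_eq_zero] using h1
  have hαS : α ∈ hfin.toFinset := hfin.mem_toFinset.2
    ⟨isOfFinOrder_iff_pow_eq_one.2 ⟨m, hm, hval f m (gcd_dvd_left _ _)⟩,
      isOfFinOrder_iff_pow_eq_one.2 ⟨n, hn, hval g n (gcd_dvd_right _ _)⟩⟩
  have h2 : rootMultiplicity α (G.map (algebraMap K Ω)) ≤ f.natDegree := by
    have hFne : (f ^ m - 1).map (algebraMap K Ω) ≠ 0 :=
      (Polynomial.map_ne_zero_iff (algebraMap K Ω).injective).2 hfm
    refine (rootMultiplicity_le_rootMultiplicity_of_dvd hFne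
      (Polynomial.map_dvd _ (gcd_dvd_left _ _)) α).trans ?_
    rw [Polynomial.map_sub, Polynomial.map_pow, Polynomial.map_one,
      ← natDegree_map_eq_of_injective (algebraMap K Ω).injective f]
    exact rootMultiplicity_pow_sub_one_le
      (by rwa [natDegree_map_eq_of_injective (algebraMap K Ω).injective]) hm α
  refine h2.trans ((le_rootMultiplicity_iff
    ((Polynomial.map_ne_zero_iff (algebraMap K Ω).injective).2
    (pow_ne_zero _ (Finset.prod_ne_zero_iff.2 fun β _ =>
      minpoly.ne_zero (Algebra.IsIntegral.isIntegral β))))).2 ?_)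
  rw [Polynomial.map_pow, Polynomial.map_prod]
  refine pow_dvd_pow_of_dvd ?_ _
  refine dvd_trans ?_ (Finset.dvd_prod_of_mem _ hαS)
  rw [dvd_iff_isRoot, IsRoot, eval_map_algebraMap]
  exact minpoly.aeval K α

/-- **The degree of the greatest common divisor is bounded.** -/
theorem exists_degree_bound (h : PolyIndep f g) :
    ∃ B : ℕ, ∀ m n : ℕ, 0 < m → 0 < n → ∀ d : K[X],
      d ∣ f ^ m - 1 → d ∣ g ^ n - 1 → d.natDegree ≤ B := by
  classical
  obtain ⟨H, hH, hdvd⟩ := exists_common_bound h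
  exact ⟨H.natDegree, fun m n hm hn d h1 h2 =>
    natDegree_le_of_dvd ((dvd_gcd h1 h2).trans (hdvd m n hm hn)) hH⟩

/-- **Coprime on a residue class.** -/
theorem exists_coprime_class (h : PolyIndep f g) (h1 : IsCoprime (f - 1) (g - 1)) :
    ∃ M : ℕ, 0 < M ∧ ∀ n : ℕ, 0 < n → n.Coprime M → IsCoprime (f ^ n - 1) (g ^ n - 1) := by
  classical
  have hfin := finite_common_values h
  refine ⟨∏ α ∈ hfin.toFinset, orderOf (aeval α f) * orderOf (aeval α g),
    Finset.prod_pos fun α hα => ?_, fun n hn0 hn => ?_⟩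
  · obtain ⟨ha, hb⟩ := hfin.mem_toFinset.1 hα
    exact Nat.mul_pos ha.orderOf_pos hb.orderOf_pos
  refine (gcd_isUnit_iff _ _).1 (Polynomial.isUnit_iff_degree_eq_zero.2 ?_)
  by_contra hdeg
  obtain ⟨α, hα⟩ := IsAlgClosed.exists_aeval_eq_zero Ω
    (gcd (f ^ n - 1) (g ^ n - 1)) hdeg
  have hval : ∀ p : K[X], gcd (f ^ n - 1) (g ^ n - 1) ∣ p ^ n - 1 → aeval α p ^ n = 1 := by
    intro p ⟨q, hq⟩
    have h2 := congrArg (aeval α) hq
    rw [map_mul, hα, zero_mul, map_sub, map_pow, map_one, sub_eq_zero] at h2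
    exact h2
  have ha := hval f (gcd_dvd_left _ _)
  have hb := hval g (gcd_dvd_right _ _)
  have hαS : α ∈ hfin.toFinset := hfin.mem_toFinset.2
    ⟨isOfFinOrder_iff_pow_eq_one.2 ⟨n, hn0, ha⟩, isOfFinOrder_iff_pow_eq_one.2 ⟨n, hn0, hb⟩⟩
  have hdvd := Finset.dvd_prod_of_mem (fun β => orderOf (aeval β f) * orderOf (aeval β g)) hαS
  have hcop := hn.coprime_dvd_right hdvd
  have hone : ∀ {x : Ω}, x ^ n = 1 → Nat.Coprime n (orderOf x) → x = 1 := fun {x} hx hc => by
    rw [← orderOf_eq_one_iff]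
    exact Nat.Coprime.eq_one_of_dvd hc.symm (orderOf_dvd_of_pow_eq_one hx)
  have h1a := hone ha hcop.coprime_mul_right_right
  have h1b := hone hb hcop.coprime_mul_left_right
  obtain ⟨u, w, huw⟩ := h1
  have h2 := congrArg (aeval α) huw
  simp [h1a, h1b] at h2

end FA.AilonRudnick

end
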